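/-
Fermat/Agent/Jac/IsQC80/AffineLocalized.lean  (helper80)

S25 programme (JAC), brick M2b-ii.  For a quasi-coherent sheaf of modules `M` on a scheme `X`, an
affine open `U` and `f : Γ(X, U)`, the restriction `Γ(M, U) → Γ(M, D(f))` is the localisation at
`f`, in elementary form:
* `exists_pow_smul_eq_res`  : every section over `D(f)` times a power of `f` extends to `U`;
* `exists_pow_smul_eq_zero` : a section over `U` vanishing on `D(f)` is killed by a power of `f`.
Proof: restrict along `hU.fromSpec : Spec Γ(X, U) ⟶ X` and use Mathlib's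
`isIso_fromTildeΓ_iff_isLocalizing` for quasi-coherent modules on an affine scheme.
-/
import Mathlib
set_option autoImplicit false
universe u
open AlgebraicGeometry CategoryTheory TopologicalSpace Opposite

namespace Fermat.Agent.Jac.IsQC80

variable {X : Scheme.{u}}

lemma image_fromSpec_le {U : X.Opens} (hU : IsAffineOpen U) (W : (Spec Γ(X, U)).Opens) :
    hU.fromSpec ''ᵁ W ≤ U :=
  (Scheme.Hom.image_le_opensRange _ _).trans hU.opensRange_fromSpec.le

/-- The ring-level compatibility behind Lemma S. -/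
lemma appIso_inv_fromSpec {U : X.Opens} (hU : IsAffineOpen U) (W : (Spec Γ(X, U)).Opens)
    (r : Γ(X, U)) :
    (hU.fromSpec.appIso W).inv
        ((Spec Γ(X, U)).presheaf.map W.leTop.op ((Scheme.ΓSpecIso Γ(X, U)).inv r)) =
      X.presheaf.map (homOfLE (image_fromSpec_le hU W)).op r := by
  have e : W ≤ hU.fromSpec ⁻¹ᵁ U := by rw [hU.fromSpec_preimage_self]; exact le_top
  have h1 := Scheme.Hom.appLE_appIso_inv hU.fromSpec e
  have h2 : hU.fromSpec.appLE U W e r =
      (Spec Γ(X, U)).presheaf.map W.leTop.op ((Scheme.ΓSpecIso Γ(X, U)).inv r) := by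
    rw [Scheme.Hom.appLE, CommRingCat.comp_apply, hU.fromSpec_app_self, CommRingCat.comp_apply,
      ← CommRingCat.comp_apply ((Spec Γ(X, U)).presheaf.map _), ← Functor.map_comp]
    rfl
  rw [← h2, ← CommRingCat.comp_apply, h1]


/-- Lemma S: the `Γ(X, U)`-action on sections of `M.restrict fromSpec` (as an `𝒪_{Spec}`-module)
is the action through restriction of functions on `X`. -/
lemma smul_restrict_fromSpec (M : X.Modules) {U : X.Opens} (hU : IsAffineOpen U)
    (W : (Spec Γ(X, U)).Opens) (r : Γ(X, U)) (x : Γ(M.restrict hU.fromSpec, W)) :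
    (M.restrictAppIso hU.fromSpec W).hom (r • x) =
      (X.presheaf.map (homOfLE (image_fromSpec_le hU W)).op r) •
        (M.restrictAppIso hU.fromSpec W).hom x := by
  rw [Scheme.Modules.smul_Spec_def]
  have := Scheme.Modules.smul_restrictAppIso_hom_apply hU.fromSpec M W
    ((Spec Γ(X, U)).presheaf.map W.leTop.op ((Scheme.ΓSpecIso Γ(X, U)).inv r)) x
  rw [appIso_inv_fromSpec] at this
  exact this


open PrimeSpectrum in
lemma isLocalizing_restrict_fromSpec (M : X.Modules) [SheafOfModules.IsQuasicoherent (R := X.ringCatSheaf) M]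
    {U : X.Opens} (hU : IsAffineOpen U) :
    IsLocalizing (modulesSpecToSheaf.obj (M.restrict hU.fromSpec)) := by
  have : SheafOfModules.IsQuasicoherent (R := (Spec Γ(X, U)).ringCatSheaf) (M.restrict hU.fromSpec) := inferInstance
  have h2 : IsIso (Scheme.Modules.fromTildeΓ (M.restrict hU.fromSpec)) := inferInstance
  exact (isIso_fromTildeΓ_iff_isLocalizing _).mp h2


open PrimeSpectrum in
lemma exists_pow_smul_eq_res_fromSpec (M : X.Modules)
    [SheafOfModules.IsQuasicoherent (R := X.ringCatSheaf) M]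
    {U : X.Opens} (hU : IsAffineOpen U) (f : Γ(X, U))
    (s : Γ(M, hU.fromSpec ''ᵁ (basicOpen f))) :
    ∃ (n : ℕ) (y : Γ(M, hU.fromSpec ''ᵁ ⊤)),
      (X.presheaf.map (homOfLE (image_fromSpec_le hU (basicOpen f))).op f) ^ n • s =
        M.presheaf.map (homOfLE (hU.fromSpec.image_mono (le_top : basicOpen f ≤ ⊤))).op y := by
  have hloc := isLocalizing_restrict_fromSpec M hU f
  let W : (Spec Γ(X, U)).Opens := basicOpen f
  let s' : Γ(M.restrict hU.fromSpec, W) := s
  obtain ⟨⟨y, ⟨c, n, hn⟩⟩, h⟩ := hloc.surj s'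
  refine ⟨n, y, ?_⟩
  have hS := smul_restrict_fromSpec M hU W (f ^ n) s'
  rw [map_pow] at hS
  have h' : f ^ n • s' =
      (M.restrict hU.fromSpec).presheaf.map (homOfLE (le_top : W ≤ ⊤)).op y := by
    subst hn
    exact h
  rw [h'] at hS
  exact hS.symm


open PrimeSpectrum in
lemma exists_pow_smul_eq_zero_fromSpec (M : X.Modules)
    [SheafOfModules.IsQuasicoherent (R := X.ringCatSheaf) M]
    {U : X.Opens} (hU : IsAffineOpen U) (f : Γ(X, U))
    (y : Γ(M, hU.fromSpec ''ᵁ ⊤))
    (hy : M.presheaf.map (homOfLE (hU.fromSpec.image_mono (le_top : basicOpen f ≤ ⊤))).op y = 0) :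
    ∃ n : ℕ, (X.presheaf.map (homOfLE (image_fromSpec_le hU ⊤)).op f) ^ n • y = 0 := by
  have hloc := isLocalizing_restrict_fromSpec M hU f
  let W : (Spec Γ(X, U)).Opens := basicOpen f
  let y' : Γ(M.restrict hU.fromSpec, ⊤) := y
  obtain ⟨⟨c, n, hn⟩, hc⟩ := hloc.exists_of_eq (x₁ := y') (x₂ := 0) (by
    rw [map_zero]
    exact hy)
  refine ⟨n, ?_⟩
  have hS := smul_restrict_fromSpec M hU ⊤ (f ^ n) y'
  rw [map_pow] at hS
  have h' : f ^ n • y' = 0 := by
    subst hn
    rw [smul_zero] at hc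
    exact hc
  rw [h', map_zero] at hS
  exact hS.symm


lemma hom_op_eq {A B : X.Opens} (i j : op A ⟶ op B) : i = j :=
  Quiver.Hom.unop_inj (Subsingleton.elim _ _)

lemma mod_map_map (M : X.Modules) {A B C : X.Opens} (i : op B ⟶ op C) (j : op A ⟶ op B)
    (k : op A ⟶ op C) (x : Γ(M, A)) :
    M.presheaf.map i (M.presheaf.map j x) = M.presheaf.map k x := by
  rw [← ConcreteCategory.comp_apply, ← Functor.map_comp, hom_op_eq (j ≫ i) k]

lemma ring_map_map {A B C : X.Opens} (i : op B ⟶ op C) (j : op A ⟶ op B)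
    (k : op A ⟶ op C) (x : Γ(X, A)) :
    X.presheaf.map i (X.presheaf.map j x) = X.presheaf.map k x := by
  rw [← CommRingCat.comp_apply, ← Functor.map_comp, hom_op_eq (j ≫ i) k]

lemma mod_map_injective_of_eq (M : X.Modules) {A B : X.Opens} (h : A = B) (i : op B ⟶ op A) :
    Function.Injective (M.presheaf.map i) := by
  subst h
  have : i = 𝟙 _ := hom_op_eq _ _
  rw [this, M.presheaf.map_id]
  exact fun _ _ h => h


lemma fromSpec_image_top {U : X.Opens} (hU : IsAffineOpen U) :
    hU.fromSpec ''ᵁ ⊤ = U := by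
  rw [Scheme.Hom.image_top_eq_opensRange, hU.opensRange_fromSpec]

/-- (E1) sections over a basic open of an affine open extend after multiplication by a power. -/
theorem exists_pow_smul_eq_res (M : X.Modules)
    [SheafOfModules.IsQuasicoherent (R := X.ringCatSheaf) M]
    {U V : X.Opens} (hU : IsAffineOpen U) (f : Γ(X, U)) (hVU : V ≤ U) (hV : V = X.basicOpen f)
    (s : Γ(M, V)) :
    ∃ (n : ℕ) (y : Γ(M, U)),
      (X.presheaf.map (homOfLE hVU).op f) ^ n • s = M.presheaf.map (homOfLE hVU).op y := by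
  have hA : hU.fromSpec ''ᵁ ⊤ = U := fromSpec_image_top hU
  have hB : hU.fromSpec ''ᵁ (PrimeSpectrum.basicOpen f) = V := by
    rw [hU.fromSpec_image_basicOpen, hV]
  obtain ⟨n, y₀, h⟩ := exists_pow_smul_eq_res_fromSpec M hU f
    (M.presheaf.map (eqToHom hB).op s)
  refine ⟨n, M.presheaf.map (eqToHom hA.symm).op y₀, ?_⟩
  apply mod_map_injective_of_eq M hB (eqToHom hB).op
  rw [M.map_smul, map_pow,
    ring_map_map _ _ (homOfLE (image_fromSpec_le hU (PrimeSpectrum.basicOpen f))).op, h]
  symm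
  rw [mod_map_map M (eqToHom hB).op (homOfLE hVU).op (homOfLE (hB.le.trans hVU)).op,
    mod_map_map M (homOfLE (hB.le.trans hVU)).op (eqToHom hA.symm).op
      (homOfLE (hU.fromSpec.image_mono (le_top : PrimeSpectrum.basicOpen f ≤ ⊤))).op]
  rfl


/-- (E2) a section over an affine open vanishing on a basic open is killed by a power. -/
theorem exists_pow_smul_eq_zero (M : X.Modules)
    [SheafOfModules.IsQuasicoherent (R := X.ringCatSheaf) M]
    {U V : X.Opens} (hU : IsAffineOpen U) (f : Γ(X, U)) (hVU : V ≤ U) (hV : V = X.basicOpen f)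
    (y : Γ(M, U)) (hy : M.presheaf.map (homOfLE hVU).op y = 0) :
    ∃ n : ℕ, f ^ n • y = 0 := by
  have hA : hU.fromSpec ''ᵁ ⊤ = U := fromSpec_image_top hU
  have hB : hU.fromSpec ''ᵁ (PrimeSpectrum.basicOpen f) = V := by
    rw [hU.fromSpec_image_basicOpen, hV]
  have hy₀ : M.presheaf.map (homOfLE (hU.fromSpec.image_mono
      (le_top : PrimeSpectrum.basicOpen f ≤ ⊤))).op (M.presheaf.map (eqToHom hA).op y) = 0 := by
    have h1 := mod_map_map M (homOfLE (hU.fromSpec.image_mono
      (le_top : PrimeSpectrum.basicOpen f ≤ ⊤))).op (eqToHom hA).op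
      (homOfLE (hB.le.trans hVU)).op y
    have h2 := mod_map_map M (eqToHom hB).op (homOfLE hVU).op (homOfLE (hB.le.trans hVU)).op y
    exact h1.trans (h2.symm.trans ((congrArg _ hy).trans (map_zero _)))
  obtain ⟨n, hn⟩ := exists_pow_smul_eq_zero_fromSpec M hU f _ hy₀
  refine ⟨n, ?_⟩
  apply mod_map_injective_of_eq M hA (eqToHom hA).op
  rw [M.map_smul, map_pow, map_zero]
  have e : X.presheaf.map (eqToHom hA).op f =
      X.presheaf.map (homOfLE (image_fromSpec_le hU ⊤)).op f := by
    rw [hom_op_eq (eqToHom hA).op (homOfLE (image_fromSpec_le hU ⊤)).op]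
  rw [e]
  exact hn

end Fermat.Agent.Jac.IsQC80
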