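/-
Fermat/Agent/Jac/IsQC80/TwoCoverIsQC.lean  (helper80)

S25 programme (JAC), brick M2b-ii: every quasi-coherent (in particular every invertible) sheaf of
modules is quasi-coherent relative to a two-chart cover in the sense of
`Fermat.Agent.Jac.TwoCoverGammaSetting.TwoCover.IsQC` (helper40).
-/
import Fermat.Agent.Jac.IsQC80.AffineLocalized
import Fermat.Agent.Jac.TwoCoverGammaSetting
import Fermat.Agent.Jac.AffineDict73.Qcoh

set_option autoImplicit false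

universe u

open AlgebraicGeometry CategoryTheory TopologicalSpace Opposite
open Fermat.Agent.Jac.TwoCoverGammaSetting

namespace Fermat.Agent.Jac.IsQC80

variable {A : Type u} [CommRing A] {X : Scheme.{u}} (𝒰 : TwoCover A X)

lemma isUnit_end_tR (M : X.Modules) :
    IsUnit (algebraMap 𝒰.R0 (Module.End 𝒰.R0 (𝒰.N01 M)) 𝒰.tR) := by
  rw [Module.End.isUnit_iff]
  have hts : 𝒰.res0 𝒰.tR * 𝒰.res1 𝒰.sR = 1 := 𝒰.ts
  have hst : 𝒰.res1 𝒰.sR * 𝒰.res0 𝒰.tR = 1 := by rw [mul_comm]; exact hts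
  have key : ∀ x : 𝒰.N01 M, algebraMap 𝒰.R0 (Module.End 𝒰.R0 (𝒰.N01 M)) 𝒰.tR x =
      𝒰.res0 𝒰.tR • x := fun x => rfl
  constructor
  · intro x y hxy
    rw [key, key] at hxy
    have := congrArg (fun z => 𝒰.res1 𝒰.sR • z) hxy
    simp only [← mul_smul, hst, one_smul] at this
    exact this
  · intro y
    refine ⟨𝒰.res1 𝒰.sR • y, ?_⟩
    rw [key, ← mul_smul, hts, one_smul]

lemma isUnit_end_sR (M : X.Modules) :
    IsUnit (algebraMap 𝒰.R1 (Module.End 𝒰.R1 (𝒰.N01 M)) 𝒰.sR) := by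
  rw [Module.End.isUnit_iff]
  have hts : 𝒰.res0 𝒰.tR * 𝒰.res1 𝒰.sR = 1 := 𝒰.ts
  have hst : 𝒰.res1 𝒰.sR * 𝒰.res0 𝒰.tR = 1 := by rw [mul_comm]; exact hts
  have key : ∀ x : 𝒰.N01 M, algebraMap 𝒰.R1 (Module.End 𝒰.R1 (𝒰.N01 M)) 𝒰.sR x =
      𝒰.res1 𝒰.sR • x := fun x => rfl
  constructor
  · intro x y hxy
    rw [key, key] at hxy
    have := congrArg (fun z => 𝒰.res0 𝒰.tR • z) hxy
    simp only [← mul_smul, hts, one_smul] at this
    exact this
  · intro y
    refine ⟨𝒰.res0 𝒰.tR • y, ?_⟩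
    rw [key, ← mul_smul, hst, one_smul]

/-- **Brick M2b-ii.**  A quasi-coherent sheaf of modules is quasi-coherent relative to any
two-chart cover. -/
theorem isQC_of_isQuasicoherent (M : X.Modules)
    [SheafOfModules.IsQuasicoherent (R := X.ringCatSheaf) M] : 𝒰.IsQC M where
  loc0 := by
    refine IsLocalizedModule.Away.mk_of_addCommGroup (r := 𝒰.tR) (f := 𝒰.r0 M)
      (isUnit_end_tR 𝒰 M) (fun x => ?_) (fun y hy => ?_)
    · obtain ⟨n, y, h⟩ := exists_pow_smul_eq_res M 𝒰.affine0 𝒰.t inf_le_left 𝒰.inter0 x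
      refine ⟨n, y, ?_⟩
      rw [TwoCover.smul_R0_N01, map_pow]
      exact h
    · exact exists_pow_smul_eq_zero M 𝒰.affine0 𝒰.t inf_le_left 𝒰.inter0 y hy
  loc1 := by
    refine IsLocalizedModule.Away.mk_of_addCommGroup (r := 𝒰.sR) (f := 𝒰.r1 M)
      (isUnit_end_sR 𝒰 M) (fun x => ?_) (fun y hy => ?_)
    · obtain ⟨n, y, h⟩ := exists_pow_smul_eq_res M 𝒰.affine1 𝒰.s inf_le_right 𝒰.inter1 x
      refine ⟨n, y, ?_⟩
      rw [TwoCover.smul_R1_N01, map_pow]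
      exact h
    · exact exists_pow_smul_eq_zero M 𝒰.affine1 𝒰.s inf_le_right 𝒰.inter1 y hy

/-- **Brick M2b-ii**, invertible form. -/
theorem isQC_of_isInvertible (M : X.Modules) (hM : Scheme.Modules.IsInvertible M) :
    𝒰.IsQC M := by
  have := AffineDict73.isQuasicoherent_of_isInvertible M hM
  exact isQC_of_isQuasicoherent 𝒰 M

end Fermat.Agent.Jac.IsQC80
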